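import Mathlib
import Fermat.Agent.LT.H767.AdeleDiscrete

/-!
# Row LT, tower T1 (basics) — helper132: `GL₂(K)` is discrete in `GL₂(𝔸_K)`

OFF-MAIN.  Mathlib + `LT/H767/AdeleDiscrete.lean` (helper767: `K` is discrete in `𝔸_K`).

* `glBox K n`   : the open neighbourhood `{g | ∀ i j, (g - 1) i j ∈ unitBox K}` of `1` in
                  `GL n 𝔸_K`;
* `eq_one_of_mem_glBox` : the only rational point in it is `1`;
* `discreteTopology_glRange` : the image of `GL n K` in `GL n 𝔸_K` is a discrete subgroup;
* `isClosed_glRange` : it is closed.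
-/

set_option autoImplicit false
set_option linter.unusedSectionVars false

open NumberField IsDedekindDomain IsDedekindDomain.HeightOneSpectrum

noncomputable section

namespace Fermat.Agent.LT.H132

variable (K : Type*) [Field K] [NumberField K]
variable (n : Type*) [Fintype n] [DecidableEq n]

/-- The diagonal embedding `GL n K → GL n 𝔸_K`. -/
abbrev glDiag : GL n K →* GL n (AdeleRing (𝓞 K) K) :=
  Matrix.GeneralLinearGroup.map (algebraMap K (AdeleRing (𝓞 K) K))

/-- The standard open neighbourhood of `1` in `GL n 𝔸_K` meeting `GL n K` in `{1}`. -/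
def glBox : Set (GL n (AdeleRing (𝓞 K) K)) :=
  {g | ∀ i j, ((g : Matrix n n (AdeleRing (𝓞 K) K)) - 1) i j ∈ H767.unitBox K}

theorem isOpen_glBox : IsOpen (glBox K n) := by
  have h : glBox K n = ⋂ i : n, ⋂ j : n,
      (fun g : GL n (AdeleRing (𝓞 K) K) =>
        ((g : Matrix n n (AdeleRing (𝓞 K) K)) - 1) i j) ⁻¹' H767.unitBox K := by
    ext g; simp [glBox]
  rw [h]
  refine isOpen_iInter_of_finite fun i => isOpen_iInter_of_finite fun j => ?_
  refine (H767.isOpen_unitBox K).preimage ?_
  have h1 : Continuous fun g : GL n (AdeleRing (𝓞 K) K) =>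
      (g : Matrix n n (AdeleRing (𝓞 K) K)) := Units.continuous_val
  have h2 : Continuous fun g : GL n (AdeleRing (𝓞 K) K) =>
      (g : Matrix n n (AdeleRing (𝓞 K) K)) - 1 := h1.sub continuous_const
  exact (continuous_apply j).comp ((continuous_apply i).comp h2)

theorem one_mem_glBox : (1 : GL n (AdeleRing (𝓞 K) K)) ∈ glBox K n := by
  intro i j
  simpa using H767.zero_mem_unitBox K

theorem glDiag_injective : Function.Injective (glDiag K n) := by
  intro a b hab
  apply Units.ext
  ext i j
  have h := congrArg (fun g : GL n (AdeleRing (𝓞 K) K) =>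
    (g : Matrix n n (AdeleRing (𝓞 K) K)) i j) hab
  simp only [glDiag, Matrix.GeneralLinearGroup.map_apply] at h
  exact AdeleRing.algebraMap_injective (𝓞 K) K h

theorem eq_one_of_mem_glBox (γ : GL n K) (h : glDiag K n γ ∈ glBox K n) : γ = 1 := by
  apply Units.ext
  ext i j
  have hij := h i j
  have h0 : ((γ : Matrix n n K) - 1) i j = 0 := by
    apply H767.eq_zero_of_mem_unitBox K
    have e : algebraMap K (AdeleRing (𝓞 K) K) (((γ : Matrix n n K) - 1) i j)
        = ((glDiag K n γ : Matrix n n (AdeleRing (𝓞 K) K)) - 1) i j := by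
      simp only [glDiag, Matrix.sub_apply, map_sub, Matrix.GeneralLinearGroup.map_apply]
      by_cases hh : i = j
      · subst hh; simp
      · simp [Matrix.one_apply_ne hh]
    rw [e]
    exact hij
  have : (γ : Matrix n n K) i j = (1 : Matrix n n K) i j := by
    have := h0
    rw [Matrix.sub_apply, sub_eq_zero] at this
    exact this
  simpa using this

/-- **`GL n K` is discrete in `GL n 𝔸_K`.** -/
theorem discreteTopology_glRange : DiscreteTopology ((glDiag K n).range) := by
  apply discreteTopology_of_isOpen_singleton_one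
  have : ({1} : Set ((glDiag K n).range)) =
      (Subtype.val : (glDiag K n).range → GL n (AdeleRing (𝓞 K) K)) ⁻¹' glBox K n := by
    ext ⟨y, hy⟩
    simp only [Set.mem_singleton_iff, Set.mem_preimage]
    constructor
    · intro h
      have : y = 1 := by simpa using congrArg Subtype.val h
      subst this
      exact one_mem_glBox K n
    · intro h
      obtain ⟨γ, rfl⟩ := hy
      have := eq_one_of_mem_glBox K n γ h
      subst this
      ext
      simp
  rw [this]
  exact (isOpen_glBox K n).preimage continuous_subtype_val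

end Fermat.Agent.LT.H132

namespace Fermat.Agent.LT.H132

variable (K : Type*) [Field K] [NumberField K]
variable (n : Type*) [Fintype n] [DecidableEq n]

/-- The finite adele ring is Hausdorff. -/
theorem t2Space_finiteAdeleRing132 : T2Space (FiniteAdeleRing (𝓞 K) K) := by
  refine T2Space.of_injective_continuous
    (f := fun (x : FiniteAdeleRing (𝓞 K) K) (v : HeightOneSpectrum (𝓞 K)) => x v) ?_ ?_
  · intro x y h
    exact RestrictedProduct.ext _ _ fun v => congrFun h v
  · exact RestrictedProduct.continuous_coe

/-- The infinite adele ring is Hausdorff. -/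
theorem t2Space_infiniteAdeleRing132 : T2Space (InfiniteAdeleRing K) :=
  inferInstanceAs (T2Space ((v : InfinitePlace K) → v.Completion))

/-- The adele ring is Hausdorff. -/
theorem t2Space_adeleRing132 : T2Space (AdeleRing (𝓞 K) K) := by
  have h1 := t2Space_finiteAdeleRing132 K
  have h2 := t2Space_infiniteAdeleRing132 K
  exact inferInstanceAs (T2Space (InfiniteAdeleRing K × FiniteAdeleRing (𝓞 K) K))

/-- `GL n 𝔸_K` is Hausdorff. -/
theorem t2Space_glAdele132 : T2Space (GL n (AdeleRing (𝓞 K) K)) := by
  have h := t2Space_adeleRing132 K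
  infer_instance

/-- **`GL n K` is closed in `GL n 𝔸_K`.** -/
theorem isClosed_glRange : IsClosed ((glDiag K n).range : Set (GL n (AdeleRing (𝓞 K) K))) := by
  have h1 := t2Space_glAdele132 K n
  have h2 := discreteTopology_glRange K n
  exact Subgroup.isClosed_of_discrete

end Fermat.Agent.LT.H132
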